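/-
helper77, P-SS2 row 1076 (SS2-C5f-2 J-MINPOLY):

  `jMinpoly M' q hq hcop hE1 : Fermat.Agent.H22.SS2.JMinpolyStatement M' q`

from helper1's `ModelE1Statement M' q` (GEN3 along `α`) and helper64's degree
`[E₀ : α E₁] = q`.  With `J = j(t)`, `J₁ = j(t^q)` in `E₁ = ModelField K₁ (M' q)` and
`J₂ = j(t^(q²))` in `E₀ = ModelField K₁ (M' q q)`:  `Φ(J₁, T) = (T - J) · minpoly_{E₁}(J₂)` for
every monic `Φ ∈ ℤ[X][T]` of degree `q + 1` with `Φ(J₁, J) = 0 = Φ(J₁, J₂)`.
-/
import Fermat.Agent.H77.SS2C.JMinAbs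
import Fermat.Agent.H22.SS2.Cusp11Interfaces
import Fermat.Agent.H1.SS2.Deg3Defs
import Fermat.Agent.H64.SS2.ModelDegExact
import Fermat.Prelude.Thm_ModularCurve_coeffMap_qExpand

set_option autoImplicit false
set_option linter.style.haveILetI false
set_option linter.unusedSectionVars false
set_option linter.unusedVariables false

noncomputable section

namespace Fermat.Agent.H77

open Polynomial ModularCurve AlgebraicCurve
open Fermat.Agent.H22.KL Fermat.Agent.H27

section series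

variable (K₁ : Type) [Field K₁] [Algebra ℚ K₁]

lemma jmp_coeffEmb_jq : coeffEmb K₁ jq = jqModC K₁ := by
  rw [coeffEmb, ← jqModC_rat, coeffMap_jqModC]

lemma jmp_jqModC_coeff_neg_one : (jqModC K₁).coeff (-1 : ℤ) = 1 := by
  rw [← jmp_coeffEmb_jq, coeffEmb_coeff, coeff_jq_neg_one, map_one]

/-- `j(t^q) = coeffEmb (j(t^q))`. -/
lemma jmp_baseS_eq (q : ℕ) [NeZero q] : baseS K₁ q = coeffEmb K₁ (qExpand ℚ q jq) := by
  rw [baseS, ← jmp_coeffEmb_jq, coeffEmb, coeffMap_qExpand]

/-- `j(t^(q²)) ≠ j(t)` for `q ≥ 2`. -/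
lemma jmp_rootInf_ne (q : ℕ) [NeZero q] (hq : 2 ≤ q) : rootInf K₁ q ≠ jqModC K₁ := by
  intro h
  have h1 : (rootInf K₁ q).coeff (-1 : ℤ) = (jqModC K₁).coeff (-1 : ℤ) := by rw [h]
  rw [jmp_jqModC_coeff_neg_one, rootInf, qExpand_coeff_of_not_dvd] at h1
  · exact zero_ne_one h1
  · intro hdvd
    have h2 : (q : ℤ) ∣ 1 := (dvd_neg (a := (q : ℤ)) (b := 1)).1 hdvd
    have h3 : q ∣ 1 := by exact_mod_cast h2
    have := Nat.le_of_dvd Nat.one_pos h3
    omega

lemma jmp_hasCoeffOff (q : ℕ) (hq : 2 ≤ q) : Fermat.Agent.H1.SS2.HasCoeffOff q jq := by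
  refine ⟨-1, ?_, ?_⟩
  · intro hdvd
    have h2 : (q : ℤ) ∣ 1 := (dvd_neg (a := (q : ℤ)) (b := 1)).1 hdvd
    have h3 : q ∣ 1 := by exact_mod_cast h2
    have := Nat.le_of_dvd Nat.one_pos h3
    omega
  · rw [coeff_jq_neg_one]
    exact one_ne_zero

lemma jmp_jq_mem_full (N : ℕ) [NeZero N] : jq ∈ modularFunctionFieldFull N := by
  have := jqModC_mem_full ℚ N
  exact this

end series

section evaluation

variable {K₁ : Type} [Field K₁] [Algebra ℚ K₁]

/-- Evaluation of `Φ(x₁, x)` commutes with the inclusion of a subfield of `K₁((t))`. -/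
lemma jmp_coe_eval {E : Type} [Field E] (ι : E →+* LaurentSeries K₁) (Φ : Polynomial (Polynomial ℤ))
    (x₁ x : E) :
    ι ((Φ.map (eval₂RingHom (Int.castRingHom E) x₁)).eval x)
      = (Φ.map (evalAt (ι x₁))).eval (ι x) := by
  have h1 : ι.comp (eval₂RingHom (Int.castRingHom E) x₁) = evalAt (ι x₁) := by
    apply Polynomial.ringHom_ext
    · intro a
      simp [evalAt]
    · simp [evalAt]
  rw [← h1, ← Polynomial.map_map, Polynomial.eval_map, Polynomial.eval_map,
    Polynomial.hom_eval₂, Polynomial.eval₂_map]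

/-- A root of `Φ(x₁, T)` detected on Laurent series. -/
lemma jmp_eval_eq_zero {E : Type} [Field E] (ι : E →+* LaurentSeries K₁)
    (hι : Function.Injective ι) (Φ : Polynomial (Polynomial ℤ)) (x₁ x : E)
    (s₁ s : LaurentSeries K₁) (h₁ : ι x₁ = s₁) (h₀ : ι x = s)
    (h : (Φ.map (evalAt s₁)).eval s = 0) :
    (Φ.map (eval₂RingHom (Int.castRingHom E) x₁)).eval x = 0 := by
  apply hι
  rw [jmp_coe_eval, h₁, h₀, h, map_zero]

/-- A root of `Φ(x₁, T)` in an extension, detected on Laurent series. -/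
lemma jmp_aeval_eq_zero {E E' : Type} [Field E] [Field E'] [Algebra E E']
    (ι : E →+* LaurentSeries K₁) (ι' : E' →+* LaurentSeries K₁)
    (hι' : Function.Injective ι') (hc : ∀ x : E, ι' (algebraMap E E' x) = ι x)
    (Φ : Polynomial (Polynomial ℤ)) (x₁ : E) (y : E')
    (s₁ s : LaurentSeries K₁) (h₁ : ι x₁ = s₁) (h₀ : ι' y = s)
    (h : (Φ.map (evalAt s₁)).eval s = 0) :
    aeval y (Φ.map (eval₂RingHom (Int.castRingHom E) x₁)) = 0 := by
  have h9 : (algebraMap E E').comp (eval₂RingHom (Int.castRingHom E) x₁)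
      = eval₂RingHom (Int.castRingHom E') (algebraMap E E' x₁) := by
    apply Polynomial.ringHom_ext
    · intro a
      simp
    · simp
  rw [Polynomial.aeval_def, Polynomial.eval₂_map, h9, ← Polynomial.eval_map]
  exact jmp_eval_eq_zero ι' hι' Φ (algebraMap E E' x₁) y s₁ s ((hc x₁).trans h₁) h₀ h

end evaluation

/-- **J-MINPOLY** (row 1076). -/
theorem jMinpoly (M' q : ℕ) [NeZero M'] [NeZero q] [NeZero (M' * q)] (hq : q.Prime)
    (hcop : Nat.Coprime M' q) (hE1 : Fermat.Agent.H1.SS2.ModelE1Statement M' q) :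
    Fermat.Agent.H22.SS2.JMinpolyStatement M' q := by
  intro K₁ _ _ _ J J₁ J₂ hJ hJ₁ hJ₂
  letI : Algebra (ModelField K₁ (M' * q)) (ModelField K₁ (M' * q * q)) :=
    (heckeAlphaBar K₁ (M' * q) q).toRingHom.toAlgebra
  obtain ⟨hfin, hrank⟩ :=
    Fermat.Agent.H64.modelFinrankAlpha_of_dvd (M' * q) q hq (dvd_mul_left q M') K₁
  haveI hfd : FiniteDimensional (ModelField K₁ (M' * q)) (ModelField K₁ (M' * q * q)) := hfin
  have hrank' : Module.finrank (ModelField K₁ (M' * q)) (ModelField K₁ (M' * q * q)) = q := hrank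
  refine ⟨hfd, hrank', ?_⟩
  intro Φ hΦm hΦd h1 h2
  obtain ⟨-, -, hgenα⟩ := hE1 hq hcop
  -- the generator
  have hJ₁' : (J₁ : LaurentSeries K₁) = coeffEmb K₁ (qExpand ℚ q jq) := by
    rw [hJ₁, jmp_baseS_eq]
  have hβ : heckeBetaBar K₁ (M' * q) q J₁ = J₂ := by
    apply Subtype.ext
    rw [coe_heckeBetaBar, hJ₁, hJ₂]
    rfl
  have hgen : ∀ z : ModelField K₁ (M' * q * q),
      ∃ p : (ModelField K₁ (M' * q))[X], z = aeval J₂ p := by
    intro z
    obtain ⟨p, -, hp⟩ := hgenα jq (jmp_jq_mem_full M') (jmp_hasCoeffOff q hq.two_le) K₁ J₁ hJ₁' z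
    rw [hβ] at hp
    exact ⟨p, hp⟩
  -- `J₂ ≠ α J`
  have hne : J₂ ≠ algebraMap (ModelField K₁ (M' * q)) (ModelField K₁ (M' * q * q)) J := by
    intro h
    have h3 : (J₂ : LaurentSeries K₁) = ((algebraMap (ModelField K₁ (M' * q))
        (ModelField K₁ (M' * q * q)) J : ModelField K₁ (M' * q * q)) : LaurentSeries K₁) := by
      rw [← h]
    have h4 : ((algebraMap (ModelField K₁ (M' * q)) (ModelField K₁ (M' * q * q)) J :
        ModelField K₁ (M' * q * q)) : LaurentSeries K₁) = (J : LaurentSeries K₁) :=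
      coe_heckeAlphaBar (M' * q) q J
    rw [h4, hJ, hJ₂] at h3
    exact jmp_rootInf_ne K₁ q hq.two_le h3
  -- the polynomial
  have hPm : (Φ.map (eval₂RingHom (Int.castRingHom (ModelField K₁ (M' * q))) J₁)).Monic :=
    hΦm.map _
  have hPd : (Φ.map (eval₂RingHom (Int.castRingHom (ModelField K₁ (M' * q))) J₁)).natDegree
      = q + 1 := by
    rw [hΦm.natDegree_map, hΦd]
  have hι₁ : Function.Injective
      ((laurentBaseChange K₁ (modularFunctionFieldFull (M' * q))).val : ModelField K₁ (M' * q)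
        →+* LaurentSeries K₁) := Subtype.val_injective
  have hι₀ : Function.Injective
      ((laurentBaseChange K₁ (modularFunctionFieldFull (M' * q * q))).val :
        ModelField K₁ (M' * q * q) →+* LaurentSeries K₁) := Subtype.val_injective
  have hroot1 : (Φ.map (eval₂RingHom (Int.castRingHom (ModelField K₁ (M' * q))) J₁)).eval J
      = 0 :=
    jmp_eval_eq_zero _ hι₁ Φ J₁ J (baseS K₁ q) (jqModC K₁) hJ₁ hJ h1
  have hc : ∀ x : ModelField K₁ (M' * q),
      ((laurentBaseChange K₁ (modularFunctionFieldFull (M' * q * q))).val :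
        ModelField K₁ (M' * q * q) →+* LaurentSeries K₁)
        (algebraMap (ModelField K₁ (M' * q)) (ModelField K₁ (M' * q * q)) x)
      = ((laurentBaseChange K₁ (modularFunctionFieldFull (M' * q))).val :
        ModelField K₁ (M' * q) →+* LaurentSeries K₁) x := by
    intro x
    have h4 : ((algebraMap (ModelField K₁ (M' * q)) (ModelField K₁ (M' * q * q)) x :
        ModelField K₁ (M' * q * q)) : LaurentSeries K₁) = (x : LaurentSeries K₁) :=
      coe_heckeAlphaBar (M' * q) q x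
    show ((algebraMap (ModelField K₁ (M' * q)) (ModelField K₁ (M' * q * q)) x :
        ModelField K₁ (M' * q * q)) : LaurentSeries K₁) = (x : LaurentSeries K₁)
    exact h4
  have hroot2 : aeval J₂ (Φ.map (eval₂RingHom (Int.castRingHom (ModelField K₁ (M' * q))) J₁))
      = 0 :=
    jmp_aeval_eq_zero
      ((laurentBaseChange K₁ (modularFunctionFieldFull (M' * q))).val : ModelField K₁ (M' * q)
        →+* LaurentSeries K₁)
      ((laurentBaseChange K₁ (modularFunctionFieldFull (M' * q * q))).val :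
        ModelField K₁ (M' * q * q) →+* LaurentSeries K₁) hι₀
      hc Φ J₁ J₂ (baseS K₁ q) (rootInf K₁ q) hJ₁ hJ₂ h2
  exact jma_eq_mul_minpoly q hrank' J J₂ hne hgen _ hPm hPd hroot1 hroot2

end Fermat.Agent.H77

end
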