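/-
helper77, P-SS2 row 1076 (SS2-C5f-2 J-MINPOLY), abstract part (Mathlib only).

`E₀ / E₁` finite of degree `n`, `E₀ = E₁[y]`, `P ∈ E₁[T]` monic of degree `n + 1` with the root
`a ∈ E₁` and the root `y ≠ a` in `E₀`:  `P = (T - a) · minpoly_{E₁}(y)`.
-/
import Mathlib

set_option autoImplicit false
set_option linter.unusedSectionVars false
set_option linter.unusedVariables false

open Polynomial

namespace Fermat.Agent.H77

variable {E₁ E₀ : Type*} [Field E₁] [Field E₀] [Algebra E₁ E₀]

/-- If every element of `E₀` is a polynomial in `y` over `E₁` then the minimal polynomial of `y`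
has degree `[E₀ : E₁]`. -/
theorem jma_natDegree_minpoly [FiniteDimensional E₁ E₀] (y : E₀)
    (hgen : ∀ z : E₀, ∃ p : E₁[X], z = aeval y p) :
    (minpoly E₁ y).natDegree = Module.finrank E₁ E₀ := by
  have hint : IsIntegral E₁ y := Algebra.IsIntegral.isIntegral y
  have htop : IntermediateField.adjoin E₁ {y} = ⊤ := by
    rw [eq_top_iff]
    intro z _
    obtain ⟨p, rfl⟩ := hgen z
    exact IntermediateField.algebra_adjoin_le_adjoin E₁ {y}
      (Polynomial.aeval_mem_adjoin_singleton E₁ y)
  rw [← IntermediateField.adjoin.finrank hint, htop, IntermediateField.finrank_top']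

/-- The factorisation `P = (T - a) · minpoly(y)`. -/
theorem jma_eq_mul_minpoly [FiniteDimensional E₁ E₀] (n : ℕ) (hn : Module.finrank E₁ E₀ = n)
    (a : E₁) (y : E₀) (hne : y ≠ algebraMap E₁ E₀ a)
    (hgen : ∀ z : E₀, ∃ p : E₁[X], z = aeval y p)
    (P : E₁[X]) (hP : P.Monic) (hdeg : P.natDegree = n + 1) (ha : P.eval a = 0)
    (hy : aeval y P = 0) :
    P = (X - C a) * minpoly E₁ y := by
  have hint : IsIntegral E₁ y := Algebra.IsIntegral.isIntegral y
  have hfac : (X - C a) * (P /ₘ (X - C a)) = P := Polynomial.mul_divByMonic_eq_iff_isRoot.2 ha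
  have hGm : (P /ₘ (X - C a)).Monic := by
    have h1 : ((X - C a) * (P /ₘ (X - C a))).Monic := by rw [hfac]; exact hP
    exact (Polynomial.monic_X_sub_C a).of_mul_monic_left h1
  have hGdeg : (P /ₘ (X - C a)).natDegree = n := by
    have h1 := (Polynomial.monic_X_sub_C a).natDegree_mul hGm
    rw [hfac, hdeg, Polynomial.natDegree_X_sub_C] at h1
    omega
  have hGy : aeval y (P /ₘ (X - C a)) = 0 := by
    have h1 : aeval y ((X - C a) * (P /ₘ (X - C a))) = 0 := by rw [hfac]; exact hy
    rw [map_mul, map_sub, aeval_X, aeval_C] at h1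
    rcases mul_eq_zero.1 h1 with h2 | h2
    · exact absurd (sub_eq_zero.1 h2) hne
    · exact h2
  have hdvd : minpoly E₁ y ∣ P /ₘ (X - C a) := minpoly.dvd E₁ y hGy
  have hmd : (minpoly E₁ y).natDegree = n := by rw [jma_natDegree_minpoly y hgen, hn]
  have hG : P /ₘ (X - C a) = minpoly E₁ y :=
    Polynomial.eq_of_monic_of_dvd_of_natDegree_le (minpoly.monic hint) hGm hdvd
      (by rw [hGdeg, hmd])
  rw [← hG, hfac]

end Fermat.Agent.H77
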